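/-
S55 / route C′ : `PT.InvSpec p S` UNCONDITIONAL (backup wiring, helper724).

Pure assembly of pieces that are closed on main:
* layer G closed: `Fin.globalInputSpec` (finite reciprocity dictionary FR ⇒ `Tow.GlobalSpecFin`);
* arithmetic core: `K.AR.H4.cokerTower`, `K.AR.H4.leaves … .dec` (AR-DEG);
* GO4: `Inv.GO4.H593.shapLeaf`, `Inv.GO4.H978.locDesc`, `Inv.GO4.asm`;
* reciprocity: `G.Rec.reciprocityFull` for `G.Rec.Loc.localInvSystem`;
* `PT.invSpec_of_rec` (route C′ wiring, version 4).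
No new mathematics.  Consumers: S56 (BASE-BIG, REC-Q).
-/
import Fermat.Agent.S55.PT.Final4
import Fermat.Agent.S55.Inv.GO4.AsmE
import Fermat.Agent.S55.Inv.GO4.ShapH593
import Fermat.Agent.S55.Inv.GO4.H978.LocDesc
import Fermat.Agent.S55.K.AR.ClosedH4
import Fermat.Agent.S55.Fin.FinRec

set_option autoImplicit false

namespace Fermat.Agent.S55.Inv.H724

open Fermat.Agent.S55 Fermat.Agent.S55.Tow ExtCitation

/-- Layer G, closed, for one `(S, p)`. -/
theorem globalSpecFin_h724 (p : ℕ) [Fact p.Prime] (S : Finset Nat.Primes) (hp2 : p ≠ 2)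
    (hpS : pPrime p ∈ S) : GlobalSpecFin S p :=
  Fin.globalInputSpec p hp2 S hpS

/-- **GO4, closed**: `Inv.CokerESpec p S`. -/
theorem cokerE_h724 (p : ℕ) [Fact p.Prime] (S : Finset Nat.Primes) (hp2 : p ≠ 2)
    (hpS : pPrime p ∈ S) : Inv.CokerESpec p S :=
  Inv.GO4.asm p S
    (Inv.GO4.H593.shapLeaf p S (K.AR.H4.cokerTower (globalSpecFin_h724 p S hp2 hpS) hp2 hpS))
    (Inv.GO4.H978.locDesc p S Fact.out ((K.AR.H4.leaves S p).dec ⟨Fact.out, hp2, hpS⟩))

/-- **Input A5–A7 of layer D, closed**: `PT.InvSpec p S` for every odd prime `p ∈ S`. -/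
theorem invSpec_h724 (p : ℕ) [Fact p.Prime] (S : Finset Nat.Primes) (hp2 : p ≠ 2)
    (hpS : pPrime p ∈ S) : PT.InvSpec p S :=
  PT.invSpec_of_rec hp2 S hpS G.Rec.Loc.localInvSystem
    (G.Rec.reciprocityFull G.Rec.Loc.localInvSystem p hp2) (cokerE_h724 p S hp2 hpS)

/-- **Input A3 of layer D, closed**: `PT.Surj2GlobSpec p S` for every odd prime `p ∈ S`. -/
theorem surj2Glob_h724 (p : ℕ) [Fact p.Prime] (S : Finset Nat.Primes) (hp2 : p ≠ 2)
    (hpS : pPrime p ∈ S) : PT.Surj2GlobSpec p S :=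
  K.AR.H4.surj2Glob p S (globalSpecFin_h724 p S hp2 hpS) hp2 hpS

end Fermat.Agent.S55.Inv.H724
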